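import Fermat.Agent.Two.Sieve.Main

/-!
# Squarefree values of a quartic form near a given real direction

A unimodular change of variables moves the cone of the sieve to any primitive direction; in a
narrow cone the value keeps the sign it has on the direction.
-/

set_option autoImplicit false

namespace Fermat.Agent.Two.Sieve

open Finset

variable (a : Fin 5 → ℤ)

/-- The form `(u, v) ↦ F (α u + γ v, β u + δ v)`. -/
def substForm (α γ β δ : ℤ) : Fin 5 → ℤ := ![
  a 0 * α ^ 4 + a 1 * α ^ 3 * β + a 2 * α ^ 2 * β ^ 2 + a 3 * α * β ^ 3 + a 4 * β ^ 4,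
  γ * (4 * a 0 * α ^ 3 + 3 * a 1 * α ^ 2 * β + 2 * a 2 * α * β ^ 2 + a 3 * β ^ 3) +
    δ * (a 1 * α ^ 3 + 2 * a 2 * α ^ 2 * β + 3 * a 3 * α * β ^ 2 + 4 * a 4 * β ^ 3),
  γ ^ 2 * (6 * a 0 * α ^ 2 + 3 * a 1 * α * β + a 2 * β ^ 2) +
    γ * δ * (3 * a 1 * α ^ 2 + 4 * a 2 * α * β + 3 * a 3 * β ^ 2) +
    δ ^ 2 * (a 2 * α ^ 2 + 3 * a 3 * α * β + 6 * a 4 * β ^ 2),
  α * (4 * a 0 * γ ^ 3 + 3 * a 1 * γ ^ 2 * δ + 2 * a 2 * γ * δ ^ 2 + a 3 * δ ^ 3) +
    β * (a 1 * γ ^ 3 + 2 * a 2 * γ ^ 2 * δ + 3 * a 3 * γ * δ ^ 2 + 4 * a 4 * δ ^ 3),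
  a 0 * γ ^ 4 + a 1 * γ ^ 3 * δ + a 2 * γ ^ 2 * δ ^ 2 + a 3 * γ * δ ^ 3 + a 4 * δ ^ 4]

variable {R : Type*} [CommRing R]

theorem val_substForm (α γ β δ : ℤ) (u v : R) :
    val (substForm a α γ β δ) u v = val a (α * u + γ * v) (β * u + δ * v) := by
  simp [val, substForm]; ring

theorem gx_substForm (α γ β δ : ℤ) (u v : R) :
    gx (substForm a α γ β δ) u v = α * gx a (α * u + γ * v) (β * u + δ * v) +
      β * gy a (α * u + γ * v) (β * u + δ * v) := by
  simp [gx, gy, substForm]; ring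

theorem gy_substForm (α γ β δ : ℤ) (u v : R) :
    gy (substForm a α γ β δ) u v = γ * gx a (α * u + γ * v) (β * u + δ * v) +
      δ * gy a (α * u + γ * v) (β * u + δ * v) := by
  simp [gx, gy, substForm]; ring

variable {a}

theorem GoodAt.subst {q : ℕ} [Fact q.Prime] (h : GoodAt a q) {α γ β δ : ℤ}
    (hdet : α * δ - γ * β = 1) : GoodAt (substForm a α γ β δ) q := by
  intro u v huv hv
  rw [val_substForm] at hv
  have hd : (α : ZMod q) * δ - γ * β = 1 := by exact_mod_cast congrArg (Int.cast (R := ZMod q)) hdet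
  have hne : (α : ZMod q) * u + γ * v ≠ 0 ∨ (β : ZMod q) * u + δ * v ≠ 0 := by
    by_contra hc
    push Not at hc
    have hu : u = 0 := by linear_combination (δ : ZMod q) * hc.1 - (γ : ZMod q) * hc.2 - u * hd
    have hv' : v = 0 := by linear_combination (α : ZMod q) * hc.2 - (β : ZMod q) * hc.1 - v * hd
    exact huv.elim (· hu) (· hv')
  rw [gx_substForm, gy_substForm]
  by_contra hc
  push Not at hc
  refine (h _ _ hne hv).elim (fun hx => hx ?_) (fun hy => hy ?_)
  · linear_combination (δ : ZMod q) * hc.1 - (β : ZMod q) * hc.2 -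
      gx a ((α : ZMod q) * u + γ * v) ((β : ZMod q) * u + δ * v) * hd
  · linear_combination (α : ZMod q) * hc.2 - (γ : ZMod q) * hc.1 -
      gy a ((α : ZMod q) * u + γ * v) ((β : ZMod q) * u + δ * v) * hd

variable (a)

/-- In a narrow cone about the first axis the value has the sign of the first coefficient. -/
theorem sign_val_of_cone {u v : ℤ} (hu : 0 < u) (h0 : a 0 ≠ 0)
    (hv : ((∑ i, |a i|) + 1) * |v| ≤ u) : 0 < val a u v * a 0 := by
  let D := ∑ i, |a i|
  have hD : 0 ≤ D := sum_nonneg fun i _ => abs_nonneg _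
  have hvu : |v| ≤ u := le_trans (le_mul_of_one_le_left (abs_nonneg v) (by simp only [D] at hD; linarith)) hv
  let r := a 1 * u ^ 3 + a 2 * u ^ 2 * v + a 3 * u * v ^ 2 + a 4 * v ^ 3
  have he : val a u v = a 0 * u ^ 4 + r * v := by simp only [val, r, Int.cast_id]; ring
  have hr : |r| ≤ D * u ^ 3 := by
    have hmon : ∀ (c : ℤ) (i j : ℕ), i + j = 3 → |c * (u ^ i * v ^ j)| ≤ |c| * u ^ 3 := by
      intro c i j hij
      rw [abs_mul, abs_mul, abs_pow, abs_pow, abs_of_pos hu, ← hij, pow_add]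
      gcongr
    have e1 := hmon (a 1) 3 0 rfl
    have e2 := hmon (a 2) 2 1 rfl
    have e3 := hmon (a 3) 1 2 rfl
    have e4 := hmon (a 4) 0 3 rfl
    simp only [pow_zero, pow_one, one_mul, mul_one] at e1 e2 e3 e4
    have e0 : 0 ≤ |a 0| * u ^ 3 := by positivity
    simp only [D, r, Fin.sum_univ_five, add_mul, mul_assoc]
    exact (abs_add_le _ _).trans (add_le_add ((abs_add_le _ _).trans (add_le_add
      ((abs_add_le _ _).trans (add_le_add (e1.trans (le_add_of_nonneg_left e0)) e2)) e3)) e4)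
  have hlt : |r * v| < |a 0| * u ^ 4 := by
    rcases eq_or_ne v 0 with rfl | hv0
    · rw [mul_zero, abs_zero]; positivity
    calc |r * v| = |r| * |v| := abs_mul _ _
      _ ≤ D * u ^ 3 * |v| := by gcongr
      _ < (D + 1) * u ^ 3 * |v| := by
          have : 0 < u ^ 3 * |v| := by positivity
          linarith
      _ = u ^ 3 * ((D + 1) * |v|) := by ring
      _ ≤ u ^ 3 * u := mul_le_mul_of_nonneg_left hv (pow_nonneg hu.le 3)
      _ = 1 * u ^ 4 := by ring
      _ ≤ |a 0| * u ^ 4 := mul_le_mul_of_nonneg_right (Int.one_le_abs h0) (by positivity)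
  rw [he]
  obtain ⟨h1, h2⟩ := abs_lt.mp hlt
  rcases lt_or_gt_of_ne h0 with h | h
  · rw [abs_of_neg h] at h1 h2; exact mul_pos_of_neg_of_neg (by linarith) h
  · rw [abs_of_pos h] at h1 h2; exact mul_pos (by linarith) h

/-- Squarefree values away from `M` in a prescribed class, with the sign of the value at a
prescribed primitive point and in any narrow cone about that point. -/
theorem exists_squarefreeAway_sign {M : ℕ} (hM : 0 < M) (h6 : 6 ∣ M)
    (hgood : ∀ q : ℕ, q.Prime → ¬ q ∣ M → GoodAt a q) (s0 t0 : ℤ)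
    (hcop : ∀ q : ℕ, q.Prime → q ∣ M → ¬ ((q : ℤ) ∣ s0 ∧ (q : ℤ) ∣ t0))
    {α β x y : ℤ} (hxy : x * α + y * β = 1) (hαβ : val a α β ≠ 0) (K B : ℕ) :
    ∃ s t : ℤ, IsCoprime s t ∧ (M : ℤ) ∣ s - s0 ∧ (M : ℤ) ∣ t - t0 ∧ (B : ℤ) ≤ x * s + y * t ∧
      0 < x * s + y * t ∧ (K : ℤ) * |α * t - β * s| ≤ x * s + y * t ∧
      0 < val a s t * val a α β ∧
      ∀ q : ℕ, q.Prime → ¬ q ∣ M → ¬ (q : ℤ) ^ 2 ∣ val a s t := by
  let b := substForm a α (-y) β x
  have hdet : α * x - -y * β = 1 := by linear_combination hxy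
  have hgood' : ∀ q : ℕ, q.Prime → ¬ q ∣ M → GoodAt b q := fun q hq hqM =>
    have : Fact q.Prime := ⟨hq⟩
    (hgood q hq hqM).subst hdet
  have hcop' : ∀ q : ℕ, q.Prime → q ∣ M →
      ¬ ((q : ℤ) ∣ x * s0 + y * t0 ∧ (q : ℤ) ∣ α * t0 - β * s0) := fun q hq hqM ⟨h1, h2⟩ =>
    hcop q hq hqM
      ⟨by
        have h := dvd_sub (h1.mul_left α) (h2.mul_left y)
        rwa [show α * (x * s0 + y * t0) - y * (α * t0 - β * s0) = s0 by
          linear_combination s0 * hxy] at h,
      by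
        have h := dvd_add (h1.mul_left β) (h2.mul_left x)
        rwa [show β * (x * s0 + y * t0) + x * (α * t0 - β * s0) = t0 by
          linear_combination t0 * hxy] at h⟩
  obtain ⟨u, v, huv, hu, hv, hB, hpos, hK, -, hsq⟩ := exists_squarefreeAway b hM h6 hgood'
    (x * s0 + y * t0) (α * t0 - β * s0) hcop' (K + ((∑ i, |b i|).toNat + 1)) B
  have hval : val b u v = val a (α * u + -y * v) (β * u + x * v) := by
    simpa using val_substForm a α (-y) β x u v
  have eu : x * (α * u + -y * v) + y * (β * u + x * v) = u := by linear_combination u * hxy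
  have ev : α * (β * u + x * v) - β * (α * u + -y * v) = v := by linear_combination v * hxy
  have hb : 0 ≤ ∑ i, |b i| := sum_nonneg fun i _ => abs_nonneg _
  push_cast [Int.toNat_of_nonneg hb] at hK
  have hKK : 0 ≤ (K : ℤ) * |v| := by positivity
  have hb' : 0 ≤ ((∑ i, |b i|) + 1) * |v| := by positivity
  refine ⟨α * u + -y * v, β * u + x * v, ?_, ?_, ?_, by rwa [eu], by rwa [eu],
    by rw [eu, ev]; linarith, ?_, fun q hq hqM => by rw [← hval]; exact hsq q hq hqM⟩
  · obtain ⟨c, d, hcd⟩ := huv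
    exact ⟨c * x - d * β, c * y + d * α, by linear_combination hcd + (c * u + d * v) * hxy⟩
  · rw [show α * u + -y * v - s0 = α * (u - (x * s0 + y * t0)) - y * (v - (α * t0 - β * s0)) by
      linear_combination s0 * hxy]
    exact dvd_sub (hu.mul_left α) (hv.mul_left y)
  · rw [show β * u + x * v - t0 = β * (u - (x * s0 + y * t0)) + x * (v - (α * t0 - β * s0)) by
      linear_combination t0 * hxy]
    exact dvd_add (hu.mul_left β) (hv.mul_left x)
  · have hb0 : b 0 = val a α β := by simp [b, substForm, val]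
    rw [← hb0, ← hval]
    exact sign_val_of_cone b hpos (hb0 ▸ hαβ) (by linarith)

end Fermat.Agent.Two.Sieve
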