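import Mathlib

/-!
# Counting lemmas for the squarefree sieve
-/

set_option autoImplicit false

namespace Fermat.Agent.Two.Sieve

open Finset Filter

/-- A subset of `[0, X)` inside one residue class modulo `Q` has at most `X / Q + 1` elements. -/
theorem card_class_le (X Q : ℕ) (p : ℕ → Prop) [DecidablePred p]
    (h : ∀ u v, p u → p v → (Q : ℤ) ∣ (u : ℤ) - v) :
    ((range X).filter p).card ≤ X / Q + 1 := by
  calc ((range X).filter p).card
      ≤ (range (X / Q + 1)).card := by
        refine card_le_card_of_injOn (fun u => u / Q) (fun u hu => ?_) (fun u hu v hv huv => ?_)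
        · rw [mem_coe, mem_filter, mem_range] at hu
          rw [mem_coe, mem_range]
          exact Nat.lt_succ_of_le (Nat.div_le_div_right hu.1.le)
        · rw [mem_coe, mem_filter] at hu hv
          have hmod : v % Q = u % Q :=
            Nat.modEq_iff_dvd.mpr (h u v hu.2 hv.2)
          have h1 := Nat.div_add_mod u Q
          have h2 := Nat.div_add_mod v Q
          simp only at huv
          rw [huv] at h1
          omega
    _ = X / Q + 1 := card_range _

theorem card_class_le_real (X Q : ℕ) (p : ℕ → Prop) [DecidablePred p]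
    (h : ∀ u v, p u → p v → (Q : ℤ) ∣ (u : ℤ) - v) :
    (((range X).filter p).card : ℝ) ≤ X / Q + 1 := by
  calc (((range X).filter p).card : ℝ) ≤ ((X / Q + 1 : ℕ) : ℝ) := by
        exact_mod_cast card_class_le X Q p h
    _ ≤ X / Q + 1 := by push_cast; gcongr; exact Nat.cast_div_le

/-- Pairs in a square whose second coordinate lies in one class once the first is fixed. -/
theorem card_snd_class_le (X Q : ℕ) (P : ℕ × ℕ → Prop) [DecidablePred P]
    (h : ∀ u v v', P (u, v) → P (u, v') → (Q : ℤ) ∣ (v : ℤ) - v') :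
    (((range X ×ˢ range X).filter P).card : ℝ) ≤ X * (X / Q + 1) := by
  rw [card_filter, sum_product]
  push_cast
  calc ∑ u ∈ range X, ∑ v ∈ range X, (if P (u, v) then (1 : ℝ) else 0)
      ≤ ∑ _u ∈ range X, ((X : ℝ) / Q + 1) := by
        refine sum_le_sum fun u _ => ?_
        rw [← natCast_card_filter]
        exact card_class_le_real X Q _ (h u)
    _ = X * (X / Q + 1) := by rw [sum_const, card_range, nsmul_eq_mul]

/-- Pairs in a square whose first coordinate lies in one class once the second is fixed. -/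
theorem card_fst_class_le (X Q : ℕ) (P : ℕ × ℕ → Prop) [DecidablePred P]
    (h : ∀ u u' v, P (u, v) → P (u', v) → (Q : ℤ) ∣ (u : ℤ) - u') :
    (((range X ×ˢ range X).filter P).card : ℝ) ≤ X * (X / Q + 1) := by
  rw [card_filter, sum_product_right]
  push_cast
  calc ∑ v ∈ range X, ∑ u ∈ range X, (if P (u, v) then (1 : ℝ) else 0)
      ≤ ∑ _v ∈ range X, ((X : ℝ) / Q + 1) := by
        refine sum_le_sum fun v _ => ?_
        rw [← natCast_card_filter]
        exact card_class_le_real X Q _ fun u u' => h u u' v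
    _ = X * (X / Q + 1) := by rw [sum_const, card_range, nsmul_eq_mul]

/-- The primes up to `n` have density zero. -/
theorem exists_primeCounting_le (k : ℕ) :
    ∃ n₀ : ℕ, ∀ n : ℕ, n₀ ≤ n → (k : ℝ) * n.primeCounting ≤ n := by
  have hlog : ∀ᶠ x : ℝ in atTop, k * (Real.log 4 + 1) + 1 ≤ Real.log x :=
    Real.tendsto_log_atTop.eventually_ge_atTop _
  obtain ⟨b, hb⟩ := eventually_atTop.mp
    ((Chebyshev.eventually_primeCounting_le one_pos).and hlog)
  refine ⟨⌈b⌉₊, fun n hn => ?_⟩
  obtain ⟨h1, h2⟩ := hb n (Nat.ceil_le.mp hn)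
  rw [Nat.floor_natCast] at h1
  have h4 : 0 ≤ Real.log 4 := Real.log_nonneg (by norm_num)
  have hk : 0 ≤ (k : ℝ) * (Real.log 4 + 1) := by positivity
  have hl : 0 < Real.log n := by linarith
  calc (k : ℝ) * n.primeCounting ≤ k * ((Real.log 4 + 1) * n / Real.log n) := by gcongr
    _ = k * (Real.log 4 + 1) * n / Real.log n := by ring
    _ ≤ n := by
        rw [div_le_iff₀ hl]
        have hn0 : (0 : ℝ) ≤ n := Nat.cast_nonneg n
        nlinarith

theorem card_primes_le (Y N : ℕ) (p : ℕ → Prop) [DecidablePred p] :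
    (((Ioc Y N).filter fun q => q.Prime ∧ p q).card : ℝ) ≤ N.primeCounting := by
  refine Nat.cast_le.mpr ?_
  rw [Nat.primeCounting, Nat.primeCounting', Nat.count_eq_card_filter_range]
  refine card_le_card fun q hq => ?_
  rw [mem_filter, mem_Ioc] at hq
  rw [mem_filter, mem_range]
  exact ⟨by omega, hq.2.1⟩

/-- The tail of the sum of inverse squares of primes. -/
theorem sum_primes_inv_sq_le {Y : ℕ} (hY : Y ≠ 0) (N : ℕ) (p : ℕ → Prop) [DecidablePred p] :
    ∑ q ∈ (Ioc Y N).filter (fun q => q.Prime ∧ p q), ((q : ℝ) ^ 2)⁻¹ ≤ (Y : ℝ)⁻¹ := by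
  refine (sum_le_sum_of_subset_of_nonneg (filter_subset _ _) fun i _ _ => by positivity).trans ?_
  rcases le_total Y N with h | h
  · exact (sum_Ioc_inv_sq_le_sub hY h).trans (sub_le_self _ (by positivity))
  · rw [Ioc_eq_empty (by omega), sum_empty]
    positivity

end Fermat.Agent.Two.Sieve
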