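import Mathlib

/-!
# Binary quartic forms and their roots modulo primes

For a quartic form with only simple roots on the projective line over `ZMod q`, the square of a
prime `q` divides the values on at most eight lines modulo `q ^ 2`.
-/

set_option autoImplicit false

namespace Fermat.Agent.Two.Sieve

open Finset

variable {R : Type*} [CommRing R] (a : Fin 5 → ℤ)

/-- The value of a binary quartic form. -/
def val (x y : R) : R :=
  a 0 * x ^ 4 + a 1 * x ^ 3 * y + a 2 * x ^ 2 * y ^ 2 + a 3 * x * y ^ 3 + a 4 * y ^ 4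

/-- The partial derivative in the first variable. -/
def gx (x y : R) : R :=
  4 * a 0 * x ^ 3 + 3 * a 1 * x ^ 2 * y + 2 * a 2 * x * y ^ 2 + a 3 * y ^ 3

/-- The partial derivative in the second variable. -/
def gy (x y : R) : R :=
  a 1 * x ^ 3 + 2 * a 2 * x ^ 2 * y + 3 * a 3 * x * y ^ 2 + 4 * a 4 * y ^ 3

/-- The form with the variables exchanged. -/
def swapForm : Fin 5 → ℤ := ![a 4, a 3, a 2, a 1, a 0]

theorem val_swapForm (x y : R) : val (swapForm a) x y = val a y x := by
  simp [val, swapForm]; ring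

theorem gx_swapForm (x y : R) : gx (swapForm a) x y = gy a y x := by
  simp [gx, gy, swapForm]; ring

theorem gy_swapForm (x y : R) : gy (swapForm a) x y = gx a y x := by
  simp [gx, gy, swapForm]; ring

theorem val_cast (s t : ℤ) : ((val a s t : ℤ) : R) = val a (s : R) (t : R) := by
  simp [val]

theorem map_val {S : Type*} [CommRing S] (f : R →+* S) (x y : R) :
    f (val a x y) = val a (f x) (f y) := by
  simp [val]

theorem map_gy {S : Type*} [CommRing S] (f : R →+* S) (x y : R) :
    f (gy a x y) = gy a (f x) (f y) := by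
  simp [gy, map_ofNat]

theorem val_smul (u x y : R) : val a (u * x) (u * y) = u ^ 4 * val a x y := by
  simp only [val]; ring

/-- Euler's identity. -/
theorem four_mul_val (x y : R) : 4 * val a x y = x * gx a x y + y * gy a x y := by
  simp only [val, gx, gy]; ring

/-- Taylor expansion in the second variable. -/
theorem exists_val_add (x y h : R) : ∃ w, val a x (y + h) = val a x y + h * gy a x y + h ^ 2 * w :=
  ⟨a 2 * x ^ 2 + a 3 * x * (3 * y + h) + a 4 * (6 * y ^ 2 + 4 * y * h + h ^ 2), by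
    simp only [val, gy]; ring⟩

theorem abs_val_le {Z : ℤ} (s t : ℤ) (hs : |s| ≤ Z) (ht : |t| ≤ Z) :
    |val a s t| ≤ (∑ i, |a i|) * Z ^ 4 := by
  have hmon : ∀ i j : ℕ, i + j = 4 → |s ^ i * t ^ j| ≤ Z ^ 4 := fun i j h => by
    rw [abs_mul, abs_pow, abs_pow, ← h, pow_add]
    gcongr
    exact pow_nonneg ((abs_nonneg _).trans hs) _
  have h0 := hmon 4 0 rfl
  have h1 := hmon 3 1 rfl
  have h2 := hmon 2 2 rfl
  have h3 := hmon 1 3 rfl
  have h4 := hmon 0 4 rfl
  simp only [Fin.sum_univ_five, add_mul]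
  simp only [val, Int.cast_id, mul_assoc]
  simp only [pow_zero, mul_one, one_mul, pow_one] at h0 h1 h2 h3 h4
  refine (abs_add_le _ _).trans (add_le_add ((abs_add_le _ _).trans (add_le_add ((abs_add_le _ _).trans
    (add_le_add ((abs_add_le _ _).trans (add_le_add ?_ ?_)) ?_)) ?_)) ?_)
  all_goals rw [abs_mul]; gcongr

/-- All roots of the form on the projective line over `ZMod q` are simple. -/
def GoodAt (q : ℕ) : Prop :=
  ∀ x y : ZMod q, (x ≠ 0 ∨ y ≠ 0) → val a x y = 0 → gx a x y ≠ 0 ∨ gy a x y ≠ 0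

variable {a}

theorem GoodAt.swap {q : ℕ} (h : GoodAt a q) : GoodAt (swapForm a) q := fun x y hxy hv => by
  rw [gx_swapForm, gy_swapForm]
  exact (h y x hxy.symm (by rwa [val_swapForm] at hv)).symm

variable {q : ℕ} [Fact q.Prime]

theorem GoodAt.gy_ne_zero (h : GoodAt a q) {r : ZMod q} (hr : val a 1 r = 0) :
    gy a 1 r ≠ 0 := by
  intro hy
  have h4 := four_mul_val a 1 r
  rw [hr, hy, mul_zero, mul_zero, one_mul, add_zero] at h4
  exact (h 1 r (Or.inl one_ne_zero) hr).elim (· h4.symm) (· hy)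

theorem GoodAt.card_roots_le (h : GoodAt a q) :
    (univ.filter fun r : ZMod q => val a 1 r = 0).card ≤ 4 := by
  classical
  let p : Polynomial (ZMod q) :=
    ∑ i : Fin 5, Polynomial.C ((a i : ZMod q)) * Polynomial.X ^ (i : ℕ)
  have heval : ∀ r, p.eval r = val a 1 r := fun r => by
    simp [p, val, Fin.sum_univ_five]
  have hp : p ≠ 0 := by
    intro h0
    have hc : ∀ i : Fin 5, (a i : ZMod q) = 0 := fun i => by
      have := congrArg (fun P => P.coeff (i : ℕ)) h0
      simpa [p, Polynomial.finsetSum_coeff, Polynomial.coeff_X_pow, Fin.val_inj] using this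
    exact (h 1 0 (Or.inl one_ne_zero) (by simp [val, hc])).elim (· (by simp [gx, hc]))
      (· (by simp [gy, hc]))
  have hdeg : p.natDegree ≤ 4 :=
    Polynomial.natDegree_sum_le_of_forall_le _ _ fun i _ =>
      (Polynomial.natDegree_C_mul_X_pow_le _ _).trans (by omega)
  refine le_trans (le_trans (card_le_card (t := p.roots.toFinset) ?_) ?_) hdeg
  · intro r hr
    rw [Multiset.mem_toFinset, Polynomial.mem_roots hp, Polynomial.IsRoot, heval]
    exact (mem_filter.mp hr).2
  · exact (Multiset.toFinset_card_le _).trans (Polynomial.card_roots' p)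

/-- The roots modulo `q ^ 2` of the dehomogenised form. -/
noncomputable def sqRoots (a : Fin 5 → ℤ) (q : ℕ) : Finset (ZMod (q ^ 2)) :=
  if h : q = 0 then ∅ else
    haveI : NeZero (q ^ 2) := ⟨pow_ne_zero 2 h⟩
    univ.filter fun r => val a 1 r = 0

theorem mem_sqRoots {r : ZMod (q ^ 2)} : r ∈ sqRoots a q ↔ val a 1 r = 0 := by
  have hq : q ≠ 0 := (Fact.out : q.Prime).ne_zero
  simp [sqRoots, hq]

theorem GoodAt.card_sqRoots_le (h : GoodAt a q) : (sqRoots a q).card ≤ 4 := by
  classical
  let π : ZMod (q ^ 2) →+* ZMod q := ZMod.castHom (dvd_pow_self q two_ne_zero) (ZMod q)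
  refine le_trans (card_le_card_of_injOn π (fun r hr => ?_) ?_) h.card_roots_le
  · rw [mem_coe, mem_filter, ← map_one π, ← map_val, mem_sqRoots.mp hr, map_zero]
    exact ⟨mem_univ _, rfl⟩
  · intro r hr r' hr' he
    rw [mem_coe, mem_sqRoots] at hr hr'
    obtain ⟨m, rfl⟩ := ZMod.intCast_surjective r
    obtain ⟨n, rfl⟩ := ZMod.intCast_surjective r'
    rw [map_intCast, map_intCast, ZMod.intCast_eq_intCast_iff_dvd_sub] at he
    obtain ⟨e, he⟩ := he
    obtain rfl : n = m + q * e := by linarith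
    obtain ⟨w, hw⟩ := exists_val_add a (1 : ℤ) m (q * e)
    have hm : ((q ^ 2 : ℕ) : ℤ) ∣ val a 1 m := by
      rw [← ZMod.intCast_zmod_eq_zero_iff_dvd, val_cast, Int.cast_one, hr]
    have hn : ((q ^ 2 : ℕ) : ℤ) ∣ val a 1 (m + q * e) := by
      rw [← ZMod.intCast_zmod_eq_zero_iff_dvd, val_cast, Int.cast_one, hr']
    push_cast at hm hn
    have hd : (q : ℤ) ^ 2 ∣ q * e * gy a 1 m := by
      have := Int.dvd_sub hn hm
      rw [hw] at this
      have h2 : (q : ℤ) ^ 2 ∣ (q * e) ^ 2 * w := ⟨e ^ 2 * w, by ring⟩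
      have h3 := Int.dvd_sub this h2
      ring_nf at h3 ⊢
      exact h3
    have hqe : (q : ℤ) ∣ e * gy a 1 m := by
      have hq : (q : ℤ) ≠ 0 := by exact_mod_cast (Fact.out : q.Prime).ne_zero
      rw [pow_two, mul_assoc] at hd
      exact (mul_dvd_mul_iff_left hq).mp hd
    have hgy : ¬ (q : ℤ) ∣ gy a 1 m := by
      rw [← ZMod.intCast_zmod_eq_zero_iff_dvd]
      have := map_gy a (Int.castRingHom (ZMod q)) 1 m
      simp only [eq_intCast, Int.cast_one] at this
      rw [this]
      refine h.gy_ne_zero ?_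
      rw [← Int.cast_one, ← val_cast, ZMod.intCast_zmod_eq_zero_iff_dvd]
      exact (dvd_pow_self _ two_ne_zero).trans hm
    obtain ⟨e', rfl⟩ := ((Nat.prime_iff_prime_int.mp Fact.out).dvd_mul.mp hqe).resolve_right hgy
    rw [ZMod.intCast_eq_intCast_iff_dvd_sub]
    exact ⟨e', by push_cast; ring⟩

/-- Away from common factors, the square of the prime divides values only on the lines of roots. -/
theorem exists_line {s t : ℤ} (hs : ¬ (q : ℤ) ∣ s) (hF : (q : ℤ) ^ 2 ∣ val a s t) :
    ∃ r ∈ sqRoots a q, (t : ZMod (q ^ 2)) = r * s := by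
  have hcop : IsCoprime (s : ℤ) ((q ^ 2 : ℕ) : ℤ) := by
    push_cast
    exact (((Nat.prime_iff_prime_int.mp Fact.out).coprime_iff_not_dvd).mpr hs).symm.pow_right
  obtain ⟨u, v, huv⟩ := hcop
  have hu : (u : ZMod (q ^ 2)) * (s : ZMod (q ^ 2)) = 1 := by
    have := congrArg (fun z : ℤ => (z : ZMod (q ^ 2))) huv
    simp only [Int.cast_add, Int.cast_mul, Int.cast_natCast, ZMod.natCast_self, mul_zero,
      add_zero, Int.cast_one] at this
    exact this
  have hzero : ((val a s t : ℤ) : ZMod (q ^ 2)) = 0 :=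
    (ZMod.intCast_zmod_eq_zero_iff_dvd _ _).mpr (by exact_mod_cast hF)
  refine ⟨(u : ZMod (q ^ 2)) * t, mem_sqRoots.mpr ?_, ?_⟩
  · rw [← hu, val_smul, ← val_cast, hzero, mul_zero]
  · rw [mul_right_comm, hu, one_mul]

/-- A good form has a nonroot modulo a prime at least five. -/
theorem GoodAt.exists_not_dvd (h : GoodAt a q) (hq : 5 ≤ q) :
    ∃ r : ℤ, ¬ (q : ℤ) ∣ val a 1 r := by
  classical
  by_contra hcon
  push Not at hcon
  have hall : (univ.filter fun r : ZMod q => val a 1 r = 0) = univ := by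
    refine filter_true_of_mem fun r _ => ?_
    obtain ⟨n, rfl⟩ := ZMod.intCast_surjective r
    rw [← Int.cast_one, ← val_cast, ZMod.intCast_zmod_eq_zero_iff_dvd]
    exact hcon n
  have := h.card_roots_le
  rw [hall, card_univ, ZMod.card] at this
  omega

end Fermat.Agent.Two.Sieve
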