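import Fermat.Agent.Two.Sieve.Form
import Fermat.Agent.Two.Sieve.Count

/-!
# Values of a binary quartic form that are squarefree away from a modulus
-/

set_option autoImplicit false

namespace Fermat.Agent.Two.Sieve

open Finset

variable {a : Fin 5 → ℤ}

theorem dvd_val_congr {n : ℕ} {s t s' t' : ℤ} (hs : (n : ℤ) ∣ s - s') (ht : (n : ℤ) ∣ t - t') :
    (n : ℤ) ∣ val a s t ↔ (n : ℤ) ∣ val a s' t' := by
  rw [← ZMod.intCast_zmod_eq_zero_iff_dvd, val_cast, ← ZMod.intCast_zmod_eq_zero_iff_dvd, val_cast,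
    (ZMod.intCast_eq_intCast_iff_dvd_sub s' s n).mpr hs,
    (ZMod.intCast_eq_intCast_iff_dvd_sub t' t n).mpr ht]

theorem dvd_val_of_dvd {n s t : ℤ} (hs : n ∣ s) (ht : n ∣ t) : n ^ 2 ∣ val a s t := by
  obtain ⟨x, rfl⟩ := hs
  obtain ⟨y, rfl⟩ := ht
  rw [val_smul]
  exact (pow_dvd_pow n (by norm_num : 2 ≤ 4)).mul_right _

variable {q : ℕ} [hq : Fact q.Prime]

/-- The count of pairs at which the square of a prime divides the value. -/
theorem GoodAt.card_event_le (h : GoodAt a q) {M' : ℤ} (hM : ¬ (q : ℤ) ∣ M') (S T : ℤ) {X : ℕ}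
    (hX : 1 ≤ X) :
    (((range X ×ˢ range X).filter fun p : ℕ × ℕ =>
      (q : ℤ) ^ 2 ∣ val a (S + M' * p.1) (T + M' * p.2)).card : ℝ) ≤
      9 * X ^ 2 / q ^ 2 + 11 * X := by
  classical
  have hcop : IsCoprime (q : ℤ) M' :=
    (Nat.prime_iff_prime_int.mp hq.out).coprime_iff_not_dvd.mpr hM
  have hcop2 : IsCoprime ((q ^ 2 : ℕ) : ℤ) M' := by
    push_cast
    exact hcop.pow_left
  let both := (range X).filter (fun u : ℕ => (q : ℤ) ∣ S + M' * u) ×ˢ
    (range X).filter (fun v : ℕ => (q : ℤ) ∣ T + M' * v)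
  let L₁ : ZMod (q ^ 2) → Finset (ℕ × ℕ) := fun r => (range X ×ˢ range X).filter
    fun p => ((T + M' * p.2 : ℤ) : ZMod (q ^ 2)) = r * ((S + M' * p.1 : ℤ) : ZMod (q ^ 2))
  let L₂ : ZMod (q ^ 2) → Finset (ℕ × ℕ) := fun r => (range X ×ˢ range X).filter
    fun p => ((S + M' * p.1 : ℤ) : ZMod (q ^ 2)) = r * ((T + M' * p.2 : ℤ) : ZMod (q ^ 2))
  have hsub : ((range X ×ˢ range X).filter fun p : ℕ × ℕ =>
      (q : ℤ) ^ 2 ∣ val a (S + M' * p.1) (T + M' * p.2)) ⊆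
      both ∪ ((sqRoots a q).biUnion L₁ ∪ (sqRoots (swapForm a) q).biUnion L₂) := by
    intro p hp
    rw [mem_filter] at hp
    by_cases hs : (q : ℤ) ∣ S + M' * p.1
    · by_cases ht : (q : ℤ) ∣ T + M' * p.2
      · refine mem_union_left _ (mem_product.mpr ?_)
        rw [mem_product] at hp
        exact ⟨mem_filter.mpr ⟨hp.1.1, hs⟩, mem_filter.mpr ⟨hp.1.2, ht⟩⟩
      · obtain ⟨r, hr, hl⟩ := exists_line (a := swapForm a) ht (by rw [val_swapForm]; exact hp.2)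
        exact mem_union_right _ (mem_union_right _
          (mem_biUnion.mpr ⟨r, hr, mem_filter.mpr ⟨hp.1, hl⟩⟩))
    · obtain ⟨r, hr, hl⟩ := exists_line hs hp.2
      exact mem_union_right _ (mem_union_left _
        (mem_biUnion.mpr ⟨r, hr, mem_filter.mpr ⟨hp.1, hl⟩⟩))
  have hclass : ∀ (Q : ℕ) (A : ℤ), IsCoprime (Q : ℤ) M' → ∀ u v : ℕ,
      (Q : ℤ) ∣ A + M' * u - (A + M' * v) → (Q : ℤ) ∣ (u : ℤ) - v := by
    intro Q A hQ u v hd
    exact hQ.dvd_of_dvd_mul_left (by rwa [show A + M' * u - (A + M' * v) = M' * (u - v) by ring] at hd)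
  have hboth : (both.card : ℝ) ≤ (X / q + 1) * (X / q + 1) := by
    rw [card_product, Nat.cast_mul]
    refine mul_le_mul ?_ ?_ (Nat.cast_nonneg _) (by positivity)
    · exact card_class_le_real X q _ fun u v hu hv => hclass q S hcop u v (dvd_sub hu hv)
    · exact card_class_le_real X q _ fun u v hu hv => hclass q T hcop u v (dvd_sub hu hv)
  have hL₁ : ∀ r, ((L₁ r).card : ℝ) ≤ X * (X / (q ^ 2 : ℕ) + 1) := fun r =>
    card_snd_class_le X _ _ fun u v v' hv hv' => hclass _ T hcop2 v v'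
      ((ZMod.intCast_eq_intCast_iff_dvd_sub _ _ _).mp (hv'.trans hv.symm))
  have hL₂ : ∀ r, ((L₂ r).card : ℝ) ≤ X * (X / (q ^ 2 : ℕ) + 1) := fun r =>
    card_fst_class_le X _ _ fun u u' v hu hu' => hclass _ S hcop2 u u'
      ((ZMod.intCast_eq_intCast_iff_dvd_sub _ _ _).mp (hu'.trans hu.symm))
  have hU : ∀ (R : Finset (ZMod (q ^ 2))) (L : ZMod (q ^ 2) → Finset (ℕ × ℕ)), R.card ≤ 4 →
      (∀ r, ((L r).card : ℝ) ≤ X * (X / (q ^ 2 : ℕ) + 1)) →
      ((R.biUnion L).card : ℝ) ≤ 4 * (X * (X / (q ^ 2 : ℕ) + 1)) := by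
    intro R L hR hL
    refine (Nat.cast_le.mpr (card_biUnion_le (s := R) (t := L))).trans ?_
    rw [Nat.cast_sum]
    refine (sum_le_card_nsmul R _ _ fun r _ => hL r).trans ?_
    rw [nsmul_eq_mul]
    gcongr
    exact_mod_cast hR
  have h1 : (((range X ×ˢ range X).filter fun p : ℕ × ℕ =>
      (q : ℤ) ^ 2 ∣ val a (S + M' * p.1) (T + M' * p.2)).card : ℝ) ≤ both.card +
        (((sqRoots a q).biUnion L₁).card + ((sqRoots (swapForm a) q).biUnion L₂).card) := by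
    exact_mod_cast (card_le_card hsub).trans
      ((card_union_le _ _).trans (Nat.add_le_add_left (card_union_le _ _) _))
  refine h1.trans ((add_le_add hboth (add_le_add (hU _ _ h.card_sqRoots_le hL₁)
    (hU _ _ h.swap.card_sqRoots_le hL₂))).trans ?_)
  push_cast
  have hq1 : (1 : ℝ) ≤ q := by exact_mod_cast hq.out.one_lt.le
  have hX1 : (1 : ℝ) ≤ X := by exact_mod_cast hX
  have hdiv : (X : ℝ) / q ≤ X := div_le_self (by positivity) hq1
  have e : ((X : ℝ) / q + 1) * (X / q + 1) +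
      (4 * (X * (X / (q : ℝ) ^ 2 + 1)) + 4 * (X * (X / (q : ℝ) ^ 2 + 1))) =
      9 * X ^ 2 / (q : ℝ) ^ 2 + (2 * (X / q) + 1 + 8 * X) := by
    field_simp
    ring
  rw [e]
  linarith

/-- The square of a large prime divides the values at no more than four coprime pairs. -/
theorem GoodAt.card_large_event_le (h : GoodAt a q) {M' : ℤ} (hM : M' ≠ 0) (S T : ℤ) {X Z : ℕ}
    (hqZ : 2 * Z < q)
    (hS : ∀ u : ℕ, u < X → 0 < S + M' * u ∧ S + M' * u ≤ Z)
    (hT : ∀ v : ℕ, v < X → |T + M' * v| ≤ Z) :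
    ((range X ×ˢ range X).filter fun p : ℕ × ℕ =>
      (q : ℤ) ^ 2 ∣ val a (S + M' * p.1) (T + M' * p.2) ∧
        IsCoprime (S + M' * p.1) (T + M' * p.2)).card ≤ 4 := by
  classical
  let L : ZMod (q ^ 2) → Finset (ℕ × ℕ) := fun r => (range X ×ˢ range X).filter fun p =>
    IsCoprime (S + M' * p.1) (T + M' * p.2) ∧
      ((T + M' * p.2 : ℤ) : ZMod (q ^ 2)) = r * ((S + M' * p.1 : ℤ) : ZMod (q ^ 2))
  have hqz : (2 * Z : ℤ) < q := by exact_mod_cast hqZ
  refine (card_le_card (t := (sqRoots a q).biUnion L) fun p hp => ?_).trans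
    (card_biUnion_le.trans ((sum_le_card_nsmul _ _ 1 fun r _ => ?_).trans ?_))
  · rw [mem_filter] at hp
    have hu := hS p.1 (mem_range.mp (mem_product.mp hp.1).1)
    have hs : ¬ (q : ℤ) ∣ S + M' * p.1 := fun hd => by
      have := Int.le_of_dvd hu.1 hd
      omega
    obtain ⟨r, hr, hl⟩ := exists_line hs hp.2.1
    exact mem_biUnion.mpr ⟨r, hr, mem_filter.mpr ⟨hp.1, hp.2.2, hl⟩⟩
  · refine card_le_one.mpr fun p hp p' hp' => ?_
    simp only [L, mem_filter, mem_product, mem_range] at hp hp'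
    obtain ⟨⟨hu, hv⟩, hc, hl⟩ := hp
    obtain ⟨⟨hu', hv'⟩, hc', hl'⟩ := hp'
    obtain ⟨hs0, hs1⟩ := hS _ hu
    obtain ⟨hs0', hs1'⟩ := hS _ hu'
    have ht := hT _ hv
    have ht' := hT _ hv'
    generalize hs : S + M' * p.1 = s at hc hl hs0 hs1
    generalize hs' : S + M' * p'.1 = s' at hc' hl' hs0' hs1'
    generalize htv : T + M' * p.2 = t at hc hl ht
    generalize htv' : T + M' * p'.2 = t' at hc' hl' ht'
    have hd : ((q ^ 2 : ℕ) : ℤ) ∣ t * s' - t' * s := by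
      rw [← ZMod.intCast_zmod_eq_zero_iff_dvd, Int.cast_sub, Int.cast_mul, Int.cast_mul, hl, hl']
      ring
    have habs : |t * s' - t' * s| ≤ 2 * (Z : ℤ) ^ 2 := by
      have e1 : |t * s'| ≤ (Z : ℤ) * Z := by
        rw [abs_mul]
        exact mul_le_mul ht (by rwa [abs_of_pos hs0']) (abs_nonneg _) (by positivity)
      have e2 : |t' * s| ≤ (Z : ℤ) * Z := by
        rw [abs_mul]
        exact mul_le_mul ht' (by rwa [abs_of_pos hs0]) (abs_nonneg _) (by positivity)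
      have := abs_sub (t * s') (t' * s)
      nlinarith
    have hZ : 2 * (Z : ℤ) ^ 2 < ((q ^ 2 : ℕ) : ℤ) := by
      push_cast
      nlinarith
    have heq : t * s' = t' * s :=
      sub_eq_zero.mp (Int.eq_zero_of_abs_lt_dvd hd (habs.trans_lt hZ))
    have hss : s = s' := Int.dvd_antisymm hs0.le hs0'.le
      (hc.dvd_of_dvd_mul_left ⟨t', by rw [heq]; ring⟩)
      (hc'.dvd_of_dvd_mul_left ⟨t, by rw [← heq]; ring⟩)
    subst hss
    have htt : t = t' := mul_right_cancel₀ hs0.ne' heq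
    refine Prod.ext ?_ ?_
    · exact_mod_cast mul_left_cancel₀ hM (add_left_cancel (hs.trans hs'.symm))
    · exact_mod_cast mul_left_cancel₀ hM (add_left_cancel (htv.trans (htt.trans htv'.symm)))
  · rw [smul_eq_mul, mul_one]
    exact h.card_sqRoots_le

omit hq

/-- A box of pairs in one class modulo `M'` contains a pair with squarefree value away from `M'`. -/
theorem exists_in_box (a : Fin 5 → ℤ) {M' : ℕ} (hM : 0 < M') (S T : ℤ) {C X : ℕ}
    (hX : 1 ≤ X) (hC : 44 * ((2 * C * X).primeCounting : ℝ) ≤ X)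
    (hD : 16 * (((∑ i, (a i).natAbs) * C ^ 2 * X ^ 2).primeCounting : ℝ) ≤ (X : ℝ) ^ 2)
    (hS : ∀ u : ℕ, u < X → 0 < S + M' * u ∧ S + M' * u ≤ (C * X : ℕ))
    (hT : ∀ v : ℕ, v < X → |T + M' * v| ≤ (C * X : ℕ))
    (hgood : ∀ q : ℕ, q.Prime → ¬ q ∣ M' → GoodAt a q)
    (hsmall : ∀ q : ℕ, q.Prime → q ≤ 36 → q ∣ M')
    (hcop : ∀ q : ℕ, q.Prime → q ∣ M' → ¬ ((q : ℤ) ∣ S ∧ (q : ℤ) ∣ T))
    (hne : ∀ u v : ℕ, val a (S + M' * u) (T + M' * v) ≠ 0) :
    ∃ u < X, ∃ v < X, ∀ q : ℕ, q.Prime → ¬ q ∣ M' →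
      ¬ (q : ℤ) ^ 2 ∣ val a (S + M' * u) (T + M' * v) := by
  classical
  by_contra hcon
  push Not at hcon
  let D := ∑ i, (a i).natAbs
  let N := D * C ^ 2 * X ^ 2
  let PA := (Ioc 36 (2 * C * X)).filter fun q => q.Prime ∧ ¬ q ∣ M'
  let PB := (Ioc (2 * C * X) N).filter fun q => q.Prime ∧ ¬ q ∣ M'
  let EA : ℕ → Finset (ℕ × ℕ) := fun q => (range X ×ˢ range X).filter fun p =>
    (q : ℤ) ^ 2 ∣ val a (S + M' * p.1) (T + M' * p.2)
  let EB : ℕ → Finset (ℕ × ℕ) := fun q => (range X ×ˢ range X).filter fun p =>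
    (q : ℤ) ^ 2 ∣ val a (S + M' * p.1) (T + M' * p.2) ∧
      IsCoprime (S + M' * p.1) (T + M' * p.2)
  have hcover : range X ×ˢ range X ⊆ PA.biUnion EA ∪ PB.biUnion EB := by
    rintro ⟨u, v⟩ hp
    rw [mem_product, mem_range, mem_range] at hp
    obtain ⟨q, hq, hqM, hdvd⟩ := hcon u hp.1 v hp.2
    have hmem : (u, v) ∈ range X ×ˢ range X := by simp [hp]
    have h36 : ∀ p : ℕ, p.Prime → ¬ p ∣ M' → 36 < p := fun p hp hpM =>
      not_le.mp fun hle => hpM (hsmall p hp hle)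
    by_cases hle : q ≤ 2 * C * X
    · exact mem_union_left _ (mem_biUnion.mpr ⟨q, mem_filter.mpr
        ⟨mem_Ioc.mpr ⟨h36 q hq hqM, hle⟩, hq, hqM⟩, mem_filter.mpr ⟨hmem, hdvd⟩⟩)
    obtain ⟨hs0, hs1⟩ := hS u hp.1
    have ht := hT v hp.2
    by_cases hco : IsCoprime (S + (M' : ℤ) * u) (T + (M' : ℤ) * v)
    · refine mem_union_right _ (mem_biUnion.mpr ⟨q, mem_filter.mpr
        ⟨mem_Ioc.mpr ⟨not_le.mp hle, ?_⟩, hq, hqM⟩, mem_filter.mpr ⟨hmem, hdvd, hco⟩⟩)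
      refine (Nat.pow_le_pow_iff_left two_ne_zero).mp ?_
      have h1 : (q : ℤ) ^ 2 ≤ |val a (S + M' * u) (T + M' * v)| :=
        Int.le_of_dvd (abs_pos.mpr (hne u v)) ((dvd_abs _ _).mpr hdvd)
      have h2 := abs_val_le a (Z := ((C * X : ℕ) : ℤ)) _ _ (by rwa [abs_of_pos hs0]) ht
      have h3 : (q : ℤ) ^ 2 ≤ ((D * (C * X) ^ 4 : ℕ) : ℤ) := by
        refine h1.trans (h2.trans (le_of_eq ?_))
        push_cast [D, Int.natCast_natAbs]
        rfl
      calc q ^ 2 ≤ D * (C * X) ^ 4 := by exact_mod_cast h3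
        _ ≤ D ^ 2 * (C * X) ^ 4 := Nat.mul_le_mul_right _ (Nat.le_self_pow two_ne_zero D)
        _ = N ^ 2 := by simp only [N]; ring
    · rw [Int.isCoprime_iff_gcd_eq_one] at hco
      obtain ⟨p, hp', hpd⟩ := Nat.exists_prime_and_dvd hco
      have hps : (p : ℤ) ∣ S + M' * u :=
        (Int.natCast_dvd_natCast.mpr hpd).trans (Int.gcd_dvd_left _ _)
      have hpt : (p : ℤ) ∣ T + M' * v :=
        (Int.natCast_dvd_natCast.mpr hpd).trans (Int.gcd_dvd_right _ _)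
      have hpM : ¬ p ∣ M' := fun hd => hcop p hp' hd
        ⟨(dvd_add_left ((Int.natCast_dvd_natCast.mpr hd).mul_right _)).mp hps,
          (dvd_add_left ((Int.natCast_dvd_natCast.mpr hd).mul_right _)).mp hpt⟩
      have hpX : p ≤ 2 * C * X := by
        have := (Int.le_of_dvd hs0 hps).trans hs1
        push_cast at this
        have h' : (p : ℤ) ≤ ((2 * C * X : ℕ) : ℤ) := by push_cast; nlinarith
        exact_mod_cast h'
      exact mem_union_left _ (mem_biUnion.mpr ⟨p, mem_filter.mpr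
        ⟨mem_Ioc.mpr ⟨h36 p hp' hpM, hpX⟩, hp', hpM⟩,
          mem_filter.mpr ⟨hmem, dvd_val_of_dvd hps hpt⟩⟩)
  have hA : ((PA.biUnion EA).card : ℝ) ≤ (X : ℝ) ^ 2 / 2 := by
    refine (Nat.cast_le.mpr (card_biUnion_le (s := PA) (t := EA))).trans ?_
    rw [Nat.cast_sum]
    calc ∑ q ∈ PA, ((EA q).card : ℝ) ≤ ∑ q ∈ PA, (9 * (X : ℝ) ^ 2 * ((q : ℝ) ^ 2)⁻¹ + 11 * X) := by
          refine sum_le_sum fun q hq => ?_
          obtain ⟨-, hqp, hqM⟩ := mem_filter.mp hq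
          have : Fact q.Prime := ⟨hqp⟩
          rw [← div_eq_mul_inv]
          exact (hgood q hqp hqM).card_event_le (M' := (M' : ℤ))
            (by exact_mod_cast hqM) S T hX
      _ = 9 * (X : ℝ) ^ 2 * (∑ q ∈ PA, ((q : ℝ) ^ 2)⁻¹) + 11 * X * PA.card := by
          rw [sum_add_distrib, sum_const, nsmul_eq_mul, mul_sum]; ring
      _ ≤ 9 * (X : ℝ) ^ 2 * ((36 : ℕ) : ℝ)⁻¹ + 11 * X * (2 * C * X).primeCounting := by
          gcongr
          · exact sum_primes_inv_sq_le (by norm_num) _ _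
          · exact_mod_cast card_primes_le 36 (2 * C * X) fun q => ¬ q ∣ M'
      _ ≤ (X : ℝ) ^ 2 / 2 := by
          push_cast
          have hx : (0 : ℝ) ≤ X := Nat.cast_nonneg X
          nlinarith
  have hB : ((PB.biUnion EB).card : ℝ) ≤ (X : ℝ) ^ 2 / 4 := by
    refine (Nat.cast_le.mpr (card_biUnion_le (s := PB) (t := EB))).trans ?_
    rw [Nat.cast_sum]
    refine (sum_le_card_nsmul PB _ (4 : ℝ) fun q hq => ?_).trans ?_
    · obtain ⟨hqI, hqp, hqM⟩ := mem_filter.mp hq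
      have : Fact q.Prime := ⟨hqp⟩
      rw [mem_Ioc] at hqI
      exact_mod_cast (hgood q hqp hqM).card_large_event_le (M' := (M' : ℤ))
        (by exact_mod_cast hM.ne') S T (Z := C * X) (by rw [← mul_assoc]; exact hqI.1) hS hT
    · rw [nsmul_eq_mul]
      have : (PB.card : ℝ) ≤ N.primeCounting := card_primes_le _ _ _
      linarith
  have htot : ((range X ×ˢ range X).card : ℝ) ≤ (X : ℝ) ^ 2 / 2 + (X : ℝ) ^ 2 / 4 := by
    refine le_trans ?_ (add_le_add hA hB)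
    exact_mod_cast (card_le_card hcover).trans (card_union_le _ _)
  rw [card_product, card_range] at htot
  push_cast at htot
  have : (1 : ℝ) ≤ X := by exact_mod_cast hX
  nlinarith

/-- Residues avoiding the zero locus modulo finitely many good primes. -/
theorem exists_residues (M : ℕ) (h6 : 6 ∣ M) (hgood : ∀ q : ℕ, q.Prime → ¬ q ∣ M → GoodAt a q)
    (s0 t0 : ℤ) (P : Finset ℕ) (hP : ∀ q ∈ P, q.Prime ∧ ¬ q ∣ M) :
    ∃ S T : ℤ, (M : ℤ) ∣ S - s0 ∧ (M : ℤ) ∣ T - t0 ∧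
      ∀ q ∈ P, ¬ (q : ℤ) ∣ val a S T := by
  classical
  induction P using Finset.induction_on with
  | empty => exact ⟨s0, t0, by simp, by simp, by simp⟩
  | @insert p P hp ih =>
    obtain ⟨hpp, hpM⟩ := hP p (mem_insert_self _ _)
    obtain ⟨S, T, hS, hT, hST⟩ := ih fun q hq => hP q (mem_insert_of_mem hq)
    have : Fact p.Prime := ⟨hpp⟩
    have h5 : 5 ≤ p := by
      have h2 : p ≠ 2 := fun e => hpM (e ▸ (show 2 ∣ 6 by norm_num).trans h6)
      have h3 : p ≠ 3 := fun e => hpM (e ▸ (show 3 ∣ 6 by norm_num).trans h6)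
      exact hpp.five_le_of_ne_two_of_ne_three h2 h3
    obtain ⟨r, hr⟩ := (hgood p hpp hpM).exists_not_dvd h5
    let Q : ℕ := M * ∏ q ∈ P, q
    have hpQ : ¬ p ∣ Q := by
      intro hd
      rcases hpp.dvd_mul.mp hd with hd | hd
      · exact hpM hd
      · obtain ⟨q, hq, hpq⟩ := hpp.prime.exists_mem_finset_dvd hd
        rw [Nat.prime_dvd_prime_iff_eq hpp (hP q (mem_insert_of_mem hq)).1] at hpq
        exact hp (hpq ▸ hq)
    obtain ⟨x, y, hxy⟩ : IsCoprime (Q : ℤ) (p : ℤ) :=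
      (((Nat.prime_iff_prime_int.mp hpp).coprime_iff_not_dvd).mpr
        (by exact_mod_cast hpQ)).symm
    refine ⟨S + Q * (x * (1 - S)), T + Q * (x * (r - T)), ?_, ?_, ?_⟩
    · have : (M : ℤ) ∣ Q := by exact_mod_cast Dvd.intro _ rfl
      rw [add_sub_right_comm]
      exact dvd_add hS (this.mul_right _)
    · have : (M : ℤ) ∣ Q := by exact_mod_cast Dvd.intro _ rfl
      rw [add_sub_right_comm]
      exact dvd_add hT (this.mul_right _)
    · intro q hq
      rcases mem_insert.mp hq with rfl | hq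
      · rwa [dvd_val_congr (s' := 1) (t' := r) ⟨-(y * (1 - S)), by linear_combination (1 - S) * hxy⟩
          ⟨-(y * (r - T)), by linear_combination (r - T) * hxy⟩]
      · have hqQ : (q : ℤ) ∣ Q := by
          exact_mod_cast (dvd_prod_of_mem (fun i => i) hq).mul_left M
        rw [dvd_val_congr (s' := S) (t' := T) (by simpa using hqQ.mul_right _)
          (by simpa using hqQ.mul_right _)]
        exact hST q hq

/-- A binary quartic form takes values squarefree away from `M` at coprime pairs in a prescribed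
class modulo `M` and in a prescribed cone, provided all its bad primes divide `M`. -/
theorem exists_squarefreeAway (a : Fin 5 → ℤ) {M : ℕ} (hM : 0 < M) (h6 : 6 ∣ M)
    (hgood : ∀ q : ℕ, q.Prime → ¬ q ∣ M → GoodAt a q) (s0 t0 : ℤ)
    (hcop : ∀ q : ℕ, q.Prime → q ∣ M → ¬ ((q : ℤ) ∣ s0 ∧ (q : ℤ) ∣ t0)) (K B : ℕ) :
    ∃ s t : ℤ, IsCoprime s t ∧ (M : ℤ) ∣ s - s0 ∧ (M : ℤ) ∣ t - t0 ∧ (B : ℤ) ≤ s ∧ 0 < s ∧
      (K : ℤ) * |t| ≤ s ∧ val a s t ≠ 0 ∧
      ∀ q : ℕ, q.Prime → ¬ q ∣ M → ¬ (q : ℤ) ^ 2 ∣ val a s t := by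
  classical
  obtain ⟨q₀, hq₀, hq₀p⟩ := Nat.exists_infinite_primes (M + 37)
  let P := (range (q₀ + 1)).filter fun q => q.Prime ∧ ¬ q ∣ M
  have hq₀P : q₀ ∈ P := mem_filter.mpr ⟨mem_range.mpr (by omega), hq₀p,
    fun hd => absurd (Nat.le_of_dvd hM hd) (by omega)⟩
  have hP : ∀ q ∈ P, q.Prime ∧ ¬ q ∣ M := fun q hq => (mem_filter.mp hq).2
  obtain ⟨S₁, T₁, hS₁, hT₁, hST⟩ := exists_residues M h6 hgood s0 t0 P hP
  let M' : ℕ := M * ∏ q ∈ P, q
  have hM' : 0 < M' := Nat.mul_pos hM (prod_pos fun q hq => (hP q hq).1.pos)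
  have hMM' : M ∣ M' := Dvd.intro _ rfl
  have hM'prime : ∀ q : ℕ, q.Prime → q ∣ M' → q ∣ M ∨ q ∈ P := by
    intro q hq hd
    refine (hq.dvd_mul.mp hd).imp id fun hd => ?_
    obtain ⟨p, hp, hqp⟩ := hq.prime.exists_mem_finset_dvd hd
    rwa [(Nat.prime_dvd_prime_iff_eq hq (hP p hp).1).mp hqp]
  have hsmall : ∀ q : ℕ, q.Prime → q ≤ 36 → q ∣ M' := by
    intro q hq hle
    by_cases hd : q ∣ M
    · exact hd.trans hMM'
    · exact (dvd_prod_of_mem (fun i => i)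
        (mem_filter.mpr ⟨mem_range.mpr (by omega), hq, hd⟩ : q ∈ P)).mul_left M
  let C := M' * (K + B + 3)
  have hC : 0 < C := Nat.mul_pos hM' (by omega)
  let D := ∑ i, (a i).natAbs
  obtain ⟨n₁, hn₁⟩ := exists_primeCounting_le (88 * C)
  obtain ⟨n₂, hn₂⟩ := exists_primeCounting_le (16 * D * C ^ 2)
  let X := max (max n₁ n₂) 1
  let S₀ := S₁ % (M' : ℤ)
  let T₀ := T₁ % (M' : ℤ)
  let N : ℕ := K * X + B + 1
  let S : ℤ := S₀ + M' * N
  have hM'z : (0 : ℤ) < M' := by exact_mod_cast hM'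
  have hS0 := Int.emod_nonneg S₁ hM'z.ne'
  have hS1 := Int.emod_lt_of_pos S₁ hM'z
  have hT0 := Int.emod_nonneg T₁ hM'z.ne'
  have hT1 := Int.emod_lt_of_pos T₁ hM'z
  have hdS : ∀ u : ℕ, (M' : ℤ) ∣ S + M' * u - S₁ := fun u =>
    ⟨-(S₁ / M') + N + u, by
      simp only [S, S₀]; linear_combination Int.emod_add_mul_ediv S₁ (M' : ℤ)⟩
  have hdT : ∀ v : ℕ, (M' : ℤ) ∣ T₀ + M' * v - T₁ := fun v =>
    ⟨-(T₁ / M') + v, by simp only [T₀]; linear_combination Int.emod_add_mul_ediv T₁ (M' : ℤ)⟩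
  have hcong : ∀ (u v q : ℕ), q ∣ M' →
      ((q : ℤ) ∣ val a (S + M' * u) (T₀ + M' * v) ↔ (q : ℤ) ∣ val a S₁ T₁) := fun u v q hd =>
    dvd_val_congr ((Int.natCast_dvd_natCast.mpr hd).trans (hdS u))
      ((Int.natCast_dvd_natCast.mpr hd).trans (hdT v))
  have hPM' : ∀ q ∈ P, q ∣ M' := fun q hq => (dvd_prod_of_mem (fun i => i) hq).mul_left M
  have hne : ∀ u v : ℕ, val a (S + M' * u) (T₀ + M' * v) ≠ 0 := fun u v h0 =>
    hST q₀ hq₀P ((hcong u v q₀ (hPM' _ hq₀P)).mp (h0 ▸ dvd_zero _))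
  have hX : 1 ≤ X := le_max_right _ _
  have hSb : ∀ u : ℕ, u < X → ((M' : ℤ) * X * K + B + 1 ≤ S + M' * u) ∧
      S + M' * u ≤ (C * X : ℕ) := by
    intro u hu
    have hu' : (u : ℤ) + 1 ≤ X := by exact_mod_cast hu
    have hu0 : (0 : ℤ) ≤ u := Int.natCast_nonneg u
    have hX' : (1 : ℤ) ≤ X := by exact_mod_cast hX
    have hK : (0 : ℤ) ≤ K := Int.natCast_nonneg K
    have hB : (0 : ℤ) ≤ B := Int.natCast_nonneg B
    have e : (K : ℤ) * X + B + 1 + u + 1 ≤ (K + B + 3) * X := by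
      nlinarith [mul_le_mul_of_nonneg_left hX' hB]
    have e' := mul_le_mul_of_nonneg_left e hM'z.le
    simp only [S, N, C, S₀]
    push_cast
    constructor <;> nlinarith
  have hTb : ∀ v : ℕ, v < X → |T₀ + M' * v| ≤ (M' : ℤ) * X := by
    intro v hv
    have hv' : (v : ℤ) + 1 ≤ X := by exact_mod_cast hv
    have hv0 : (0 : ℤ) ≤ v := Int.natCast_nonneg v
    rw [abs_le]
    simp only [T₀]
    constructor <;> nlinarith
  have hCb : 44 * ((2 * C * X).primeCounting : ℝ) ≤ X := by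
    have h := hn₁ (2 * C * X) (le_trans (by omega : n₁ ≤ 1 * X)
      (Nat.mul_le_mul_right _ (by omega)))
    push_cast at h
    have hc : (0 : ℝ) < C := by exact_mod_cast hC
    nlinarith
  have hDb : 16 * ((D * C ^ 2 * X ^ 2).primeCounting : ℝ) ≤ (X : ℝ) ^ 2 := by
    rcases Nat.eq_zero_or_pos D with hD | hD
    · simp only [D] at hD
      rw [show D = 0 from hD, zero_mul, zero_mul, Nat.primeCounting_zero]
      push_cast
      nlinarith
    · have hDC : 1 ≤ D * C ^ 2 := Nat.mul_pos hD (pow_pos hC 2)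
      have h := hn₂ (D * C ^ 2 * X ^ 2) (le_trans (by omega : n₂ ≤ 1 * X)
        (Nat.mul_le_mul hDC (Nat.le_self_pow two_ne_zero X)))
      push_cast at h
      have hc : (0 : ℝ) < (D : ℝ) * (C : ℝ) ^ 2 := by exact_mod_cast hDC
      nlinarith
  have hcop' : ∀ q : ℕ, q.Prime → q ∣ M' → ¬ ((q : ℤ) ∣ S ∧ (q : ℤ) ∣ T₀) := by
    intro q hq hd ⟨h1, h2⟩
    have e1 : (q : ℤ) ∣ S₁ := by
      have := (Int.natCast_dvd_natCast.mpr hd).trans (hdS 0)
      simp only [Nat.cast_zero, mul_zero, add_zero] at this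
      exact (dvd_sub_right h1).mp this
    have e2 : (q : ℤ) ∣ T₁ := by
      have := (Int.natCast_dvd_natCast.mpr hd).trans (hdT 0)
      simp only [Nat.cast_zero, mul_zero, add_zero] at this
      exact (dvd_sub_right h2).mp this
    rcases hM'prime q hq hd with hqM | hqP
    · have hqz := Int.natCast_dvd_natCast.mpr hqM
      exact hcop q hq hqM ⟨(dvd_sub_right e1).mp (hqz.trans hS₁),
        (dvd_sub_right e2).mp (hqz.trans hT₁)⟩
    · exact hST q hqP ((dvd_pow_self _ two_ne_zero).trans (dvd_val_of_dvd e1 e2))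
  obtain ⟨u, hu, v, hv, hgoodv⟩ := exists_in_box a hM' S T₀ (C := C) (X := X) hX hCb hDb
    (fun u hu => ⟨lt_of_lt_of_le (by positivity) (hSb u hu).1, (hSb u hu).2⟩)
    (fun v hv => (hTb v hv).trans (by
      simp only [C]; push_cast
      exact mul_le_mul_of_nonneg_right (le_mul_of_one_le_right hM'z.le (by omega))
        (Int.natCast_nonneg X)))
    (fun q hq hqM => hgood q hq fun hd => hqM (hd.trans hMM')) hsmall hcop' hne
  set s := S + (M' : ℤ) * u with hs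
  set t := T₀ + (M' : ℤ) * v with ht
  have hsM : (M : ℤ) ∣ s - s0 := by
    have := dvd_add ((Int.natCast_dvd_natCast.mpr hMM').trans (hdS u)) hS₁
    simpa using this
  have htM : (M : ℤ) ∣ t - t0 := by
    have := dvd_add ((Int.natCast_dvd_natCast.mpr hMM').trans (hdT v)) hT₁
    simpa using this
  have hsb := (hSb u hu).1
  have hMXK : (0 : ℤ) ≤ M' * X * K := by positivity
  have hB0 := Int.natCast_nonneg B
  have hpos : 0 < s := by linarith
  have hsq : ∀ q : ℕ, q.Prime → ¬ q ∣ M → ¬ (q : ℤ) ^ 2 ∣ val a s t := by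
    intro q hq hqM
    by_cases hd : q ∣ M'
    · intro hdvd
      refine hST q ((hM'prime q hq hd).resolve_left hqM) ((hcong u v q hd).mp ?_)
      exact (dvd_pow_self _ two_ne_zero).trans hdvd
    · exact hgoodv q hq hd
  refine ⟨s, t, ?_, hsM, htM, ?_, hpos, ?_, hne u v, hsq⟩
  · rw [Int.isCoprime_iff_gcd_eq_one]
    by_contra hg
    obtain ⟨p, hp, hpd⟩ := Nat.exists_prime_and_dvd hg
    have hps : (p : ℤ) ∣ s := (Int.natCast_dvd_natCast.mpr hpd).trans (Int.gcd_dvd_left _ _)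
    have hpt : (p : ℤ) ∣ t := (Int.natCast_dvd_natCast.mpr hpd).trans (Int.gcd_dvd_right _ _)
    by_cases hpM : p ∣ M
    · exact hcop p hp hpM
        ⟨(dvd_sub_right hps).mp ((Int.natCast_dvd_natCast.mpr hpM).trans hsM),
          (dvd_sub_right hpt).mp ((Int.natCast_dvd_natCast.mpr hpM).trans htM)⟩
    · exact hsq p hp hpM (dvd_val_of_dvd hps hpt)
  · linarith
  · have := mul_le_mul_of_nonneg_left (hTb v hv) (Int.natCast_nonneg K)
    linarith

end Fermat.Agent.Two.Sieve
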